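import Mathlib.Algebra.BigOperators.Group.Finset.Basic
import Mathlib.Algebra.BigOperators.Ring.Finset
import Mathlib.Data.Set.Finite.Basic
import Mathlib.Order.Monotone.Basic
import Mathlib.Tactic.LinearCombination
import Mathlib.Tactic.Ring
import Mathlib.Tactic.NormNum

/-!
# Schäffer's exceptions `k = 1, 3, 5`

For `k = 3` every sum is a square; for `k = 1` and `k = 5` two Pell recurrences give infinitely
many squares.
-/

set_option autoImplicit false

namespace FA.SchaefferRoots

open Finset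

theorem two_mul_sum (m : ℕ) : 2 * ∑ i ∈ range m, (i + 1) ^ 1 = m * (m + 1) := by
  induction m with
  | zero => rfl
  | succ m ih => rw [sum_range_succ, mul_add, ih]; ring

theorem four_mul_sum_cube (m : ℕ) :
    4 * ∑ i ∈ range m, (i + 1) ^ 3 = (m * (m + 1)) ^ 2 := by
  induction m with
  | zero => rfl
  | succ m ih => rw [sum_range_succ, mul_add, ih]; ring

theorem twelve_mul_sum_fifth (m : ℕ) :
    12 * ∑ i ∈ range m, (i + 1) ^ 5 + (m * (m + 1)) ^ 2 = 2 * (m * (m + 1)) ^ 3 := by
  induction m with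
  | zero => rfl
  | succ m ih => rw [sum_range_succ]; linear_combination ih

/-- `2 y ^ 2 = m (m + 1)`. -/
def pellOne : ℕ → ℕ × ℕ
  | 0 => (1, 1)
  | n + 1 => (3 * (pellOne n).1 + 4 * (pellOne n).2 + 1, 2 * (pellOne n).1 + 3 * (pellOne n).2 + 1)

/-- `3 Z ^ 2 + 1 = 2 m (m + 1)`. -/
def pellFive : ℕ → ℕ × ℕ
  | 0 => (1, 1)
  | n + 1 => (5 * (pellFive n).1 + 6 * (pellFive n).2 + 2,
      4 * (pellFive n).1 + 5 * (pellFive n).2 + 2)

theorem pellOne_spec (n : ℕ) :
    2 * (pellOne n).2 ^ 2 = (pellOne n).1 * ((pellOne n).1 + 1) ∧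
      n < (pellOne n).1 ∧ n < (pellOne n).2 := by
  induction n with
  | zero => simp [pellOne]
  | succ n ih =>
    obtain ⟨h, h1, h2⟩ := ih
    exact ⟨by simp only [pellOne]; linear_combination h, by simp only [pellOne]; omega,
      by simp only [pellOne]; omega⟩

theorem pellFive_spec (n : ℕ) :
    3 * (pellFive n).2 ^ 2 + 1 = 2 * ((pellFive n).1 * ((pellFive n).1 + 1)) ∧
      n < (pellFive n).1 ∧ n < (pellFive n).2 := by
  induction n with
  | zero => simp [pellFive]
  | succ n ih =>
    obtain ⟨h, h1, h2⟩ := ih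
    exact ⟨by simp only [pellFive]; linear_combination h, by simp only [pellFive]; omega,
      by simp only [pellFive]; omega⟩

theorem pell_injective {f : ℕ → ℕ} (h : ∀ n, f n < f (n + 1)) : Function.Injective f :=
  (strictMono_nat_of_lt_succ h).injective

/-- **The squares among the sums are infinite in number for `k = 1, 3, 5`.** -/
theorem exceptions_infinite {k : ℕ} (hk : k = 1 ∨ k = 3 ∨ k = 5) :
    {s : ℕ × ℕ × ℕ | 2 ≤ s.2.1 ∧ 2 ≤ s.2.2 ∧
      ∑ i ∈ range s.1, (i + 1) ^ k = s.2.1 ^ s.2.2}.Infinite := by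
  rcases hk with rfl | rfl | rfl
  · refine Set.infinite_of_injective_forall_mem
      (f := fun n => ((pellOne (n + 1)).1, (pellOne (n + 1)).2, 2))
      (fun a b h => ?_) fun n => ?_
    · have e : (pellOne (a + 1)).1 = (pellOne (b + 1)).1 :=
        congrArg (fun p : ℕ × ℕ × ℕ => p.1) h
      exact Nat.succ_injective (pell_injective (f := fun n => (pellOne n).1)
        (fun n => by simp only [pellOne]; omega) e)
    · obtain ⟨h, -, h2⟩ := pellOne_spec (n + 1)
      refine ⟨by show 2 ≤ (pellOne (n + 1)).2; omega, le_rfl,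
        Nat.eq_of_mul_eq_mul_left two_pos ?_⟩
      rw [two_mul_sum]
      exact h.symm
  · refine Set.infinite_of_injective_forall_mem
      (f := fun n => (n + 2, ∑ i ∈ range (n + 2), (i + 1) ^ 1, 2))
      (fun a b h => by simpa using congrArg Prod.fst h) fun n => ?_
    have h1 := two_mul_sum (n + 2)
    refine ⟨?_, le_rfl, Nat.eq_of_mul_eq_mul_left (show 0 < 4 by omega) ?_⟩
    · show 2 ≤ ∑ i ∈ range (n + 2), (i + 1) ^ 1
      have : 2 * 3 ≤ (n + 2) * (n + 2 + 1) := Nat.mul_le_mul (by omega) (by omega)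
      omega
    · rw [four_mul_sum_cube, ← h1]
      ring
  · refine Set.infinite_of_injective_forall_mem
      (f := fun n => ((pellFive (n + 1)).1,
        (∑ i ∈ range (pellFive (n + 1)).1, (i + 1) ^ 1) * (pellFive (n + 1)).2, 2))
      (fun a b h => ?_) fun n => ?_
    · have e : (pellFive (a + 1)).1 = (pellFive (b + 1)).1 :=
        congrArg (fun p : ℕ × ℕ × ℕ => p.1) h
      exact Nat.succ_injective (pell_injective (f := fun n => (pellFive n).1)
        (fun n => by simp only [pellFive]; omega) e)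
    obtain ⟨h, hm, hz⟩ := pellFive_spec (n + 1)
    set m := (pellFive (n + 1)).1
    set z := (pellFive (n + 1)).2
    set T := ∑ i ∈ range m, (i + 1) ^ 1
    have hT : 2 * T = m * (m + 1) := two_mul_sum m
    refine ⟨?_, le_rfl, Nat.eq_of_mul_eq_mul_left (show 0 < 12 by omega) ?_⟩
    · show 2 ≤ T * z
      have h3 : 2 * 3 ≤ m * (m + 1) := Nat.mul_le_mul (by omega) (by omega)
      exact le_trans (by omega : 2 ≤ T) (Nat.le_mul_of_pos_right T (by omega))
    · have h5 := twelve_mul_sum_fifth m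
      rw [← hT] at h5 h
      refine Nat.add_right_cancel (m := (2 * T) ^ 2) (h5.trans ?_)
      show 2 * (2 * T) ^ 3 = 12 * (T * z) ^ 2 + (2 * T) ^ 2
      calc 2 * (2 * T) ^ 3 = (2 * T) ^ 2 * (2 * (2 * T)) := by ring
        _ = (2 * T) ^ 2 * (3 * z ^ 2 + 1) := by rw [h]
        _ = _ := by ring

end FA.SchaefferRoots
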