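import Fermat.Agent.SchaefferRoots.Rational
import Fermat.Agent.SchaefferEquation.Finite
import Fermat.Agent.BakerExplicit.SIntegralSuperelliptic
import Mathlib.FieldTheory.Perfect

/-!
# Schäffer's equation with a square

The square-free part of the polynomial of `1 ^ k + ⋯ + m ^ k`, odd `k ≥ 7`, has three simple roots,
so for even exponents the effective hyperelliptic bound applies.
-/

set_option autoImplicit false

noncomputable section

namespace FA.SchaefferRoots

open Polynomial Finset SchaefferEquation BakerExplicit.SIntegralSuperelliptic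

/-- A polynomial is a square-free one times a square. -/
theorem exists_squarefree_mul_sq {S : ℚ[X]} (hS : S ≠ 0) :
    ∃ g h : ℚ[X], S = g * h ^ 2 ∧ Squarefree g := by
  induction hn : S.natDegree using Nat.strong_induction_on generalizing S with
  | _ n ih =>
    by_cases hsq : Squarefree S
    · exact ⟨S, 1, by ring, hsq⟩
    · obtain ⟨x, ⟨T, hT⟩, hx⟩ : ∃ x, x * x ∣ S ∧ ¬ IsUnit x := by
        simpa [Squarefree, not_forall] using hsq
      have hx0 : x ≠ 0 := fun h => hS (by simp [hT, h])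
      have hT0 : T ≠ 0 := fun h => hS (by simp [hT, h])
      have hxd : x.natDegree ≠ 0 := fun h => hx (by
        rw [eq_C_of_natDegree_eq_zero h] at hx0 ⊢
        exact isUnit_C.2 (isUnit_iff_ne_zero.2 (C_ne_zero.1 hx0)))
      have hd : S.natDegree = x.natDegree + x.natDegree + T.natDegree := by
        rw [hT, natDegree_mul (mul_ne_zero hx0 hx0) hT0, natDegree_mul hx0 hx0]
      obtain ⟨g, h, hgh, hg⟩ := ih T.natDegree (by omega) hT0 rfl
      exact ⟨g, h * x, by rw [hT, hgh]; ring, hg⟩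

theorem sumPoly_comp (k : ℕ) :
    (sumPoly k).comp (X - 1) = C ((k : ℚ) + 1)⁻¹ * centredBernoulli (k + 1) := by
  simp [sumPoly, centredBernoulli, mul_comp, comp_assoc]

/-- **The odd part is large.** -/
theorem odd_part_large {k : ℕ} (hk : Odd k) (hk7 : 7 ≤ k) {g h : ℚ[X]}
    (hgh : sumPoly k = g * h ^ 2) : 3 ≤ g.natDegree := by
  by_contra hg
  obtain ⟨j, hj⟩ := hk
  have hk1 : ((k : ℚ) + 1) ≠ 0 := by positivity
  have h1 := congrArg (fun p : ℚ[X] => C ((k : ℚ) + 1) * p.comp (X - 1)) hgh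
  simp only [sumPoly_comp, mul_comp, pow_comp] at h1
  rw [← mul_assoc, ← C_mul, mul_inv_cancel₀ hk1, C_1, one_mul, ← mul_assoc,
    show k + 1 = 2 * (j + 1) by omega] at h1
  refine centredBernoulli_ne_mul_sq (by omega) (le_trans ?_ (show g.natDegree ≤ 2 by omega)) h1
  rw [natDegree_C_mul hk1, natDegree_comp, ← C_1, natDegree_X_sub_C, mul_one]

/-- Odd `k ≥ 7`: even exponents leave finitely many solutions. -/
theorem even_exponent_bounded {k : ℕ} (hk : Odd k) (hk7 : 7 ≤ k) {b : ℕ} (hb : b ≠ 0) :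
    ∃ B : ℕ, ∀ m y q : ℕ, 2 ≤ y → (2 ≤ q ∧ Even q) →
      ∑ i ∈ range m, (i + 1) ^ k = b * y ^ q → m ≤ B := by
  have hk0 : k ≠ 0 := by omega
  have hS : sumPoly k ≠ 0 := fun h => by
    have := sumPoly_eval_nat (k := k) hk0 1
    simp [h] at this
  obtain ⟨g, h, hgh, hg⟩ := exists_squarefree_mul_sq hS
  obtain ⟨D, f, hD, hf⟩ := exists_integral_multiple g
  have hDq : (D : ℚ) ≠ 0 := Int.cast_ne_zero.2 hD
  have hsep : (f.map (Int.castRingHom ℚ)).Separable := by
    rw [hf]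
    exact (PerfectField.separable_iff_squarefree.2 hg).of_dvd
      ((isUnit_C.2 (isUnit_iff_ne_zero.2 hDq)).mul_left_dvd.2 dvd_rfl)
  have hdeg : 3 ≤ f.natDegree := by
    have hinj : Function.Injective (Int.castRingHom ℚ) := Int.cast_injective
    rw [← natDegree_map_eq_of_injective hinj f, hf, natDegree_C_mul hDq]
    exact odd_part_large hk hk7 hgh
  obtain ⟨K, hK⟩ : ∃ K, ∀ i, (f.coeff i).natAbs ≤ 2 ^ K :=
    ⟨∑ i ∈ range (f.natDegree + 1), (f.coeff i).natAbs, fun i => by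
      rcases Nat.lt_or_ge i (f.natDegree + 1) with hi | hi
      · exact (single_le_sum (f := fun i => (f.coeff i).natAbs) (fun _ _ => Nat.zero_le _)
          (mem_range.2 hi)).trans Nat.lt_two_pow_self.le
      · simp [coeff_eq_zero_of_natDegree_lt (show f.natDegree < i by omega)]⟩
  refine ⟨2 ^ abscissaBound f.natDegree K 2 (D * b).natAbs, fun m y q hy ⟨_, r, hr⟩ he => ?_⟩
  have hev : (g.eval (m : ℚ)) * h.eval (m : ℚ) ^ 2 = (b : ℚ) * ((y : ℚ) ^ r) ^ 2 := by
    have h1 := sumPoly_eval_nat (k := k) hk0 m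
    rw [hgh, eval_mul, eval_pow] at h1
    rw [h1, ← pow_mul, show r * 2 = q by omega]
    exact_mod_cast he
  have hne : h.eval (m : ℚ) ≠ 0 := fun h0 => by
    rw [h0, zero_pow two_ne_zero, mul_zero] at hev
    simp [hb, show y ≠ 0 by omega] at hev
  have heq : ((D * b : ℤ) : ℚ) * ((y : ℚ) ^ r / h.eval (m : ℚ)) ^ 2 = aeval (m : ℚ) f := by
    rw [aeval_def, ← eval_map, algebraMap_int_eq, hf, eval_mul, eval_C, div_pow, Int.cast_mul,
      Int.cast_natCast, ← mul_div_assoc, mul_assoc, ← hev]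
    field_simp
  have hA : D * (b : ℤ) ≠ 0 := mul_ne_zero hD (Int.natCast_ne_zero.2 hb)
  have hb1 := (separable_bound_smooth (g := (D * b).natAbs) le_rfl hdeg hsep hK le_rfl hA
    (fun p _ hp => (Nat.le_of_dvd (Int.natAbs_pos.2 hA) hp).trans Nat.lt_two_pow_self.le)
    (fun p hp hpd => absurd (Nat.dvd_one.1 (by simpa using hpd)) hp.ne_one) heq).1
  simpa using hb1

/-- **Győry, Tijdeman, Voorhoeve**: all exponents for `k ∉ {1, 3, 5}`. -/
theorem solutions_finite {k : ℕ} (hk0 : k ≠ 0) (h1 : k ≠ 1) (h3 : k ≠ 3) (h5 : k ≠ 5) {b : ℕ}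
    (hb : b ≠ 0) :
    {s : ℕ × ℕ × ℕ | 2 ≤ s.2.1 ∧ 2 ≤ s.2.2 ∧
      ∑ i ∈ range s.1, (i + 1) ^ k = b * s.2.1 ^ s.2.2}.Finite := by
  rcases Nat.even_or_odd k with hk | hk
  · exact even_finite hk hk0 hb
  obtain ⟨B, hB⟩ := even_exponent_bounded hk (by obtain ⟨j, rfl⟩ := hk; omega) hb
  refine ((finite_of_bounded hb (Q := fun q => 2 ≤ q ∧ Even q) (fun _ h => h.1) hB).union
    (odd_finite hk hb)).subset ?_
  rintro ⟨m, y, q⟩ ⟨hy, hq, he⟩
  rcases Nat.even_or_odd q with hev | ⟨r, hr⟩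
  · exact Or.inl ⟨hy, ⟨hq, hev⟩, he⟩
  · exact Or.inr ⟨hy, Or.inl (by dsimp only at hq ⊢; omega), he⟩

end FA.SchaefferRoots

end
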