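import Fermat.Agent.SchaefferRoots.TwoAdic
import Mathlib.Algebra.Polynomial.Derivative
import Mathlib.Algebra.Polynomial.Degree.Lemmas
import Mathlib.RingTheory.Polynomial.SmallDegreeVieta

/-!
# An integral polynomial with the parities of `B (2 m) (X) - B (2 m)` is not `A R ^ 2`, `deg A ≤ 2`

If `m` is no power of two the leading coefficient is twice odd, so the reduction is `R ^ 2`; half
of the derivative, modulo two, leaves an identity between `(X + 1) ^ (m - 1)` and `X ^ (m - 1)`.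
If `m` is a power of two the coefficients of `X ^ (m / 2)` and `X ^ (3 m / 2)` decide modulo four.
-/

set_option autoImplicit false

noncomputable section

namespace FA.SchaefferRoots

open Polynomial

local notation "π" => Int.castRingHom (ZMod 2)

/-- The reduction is `parityPoly m` squared. -/
def parityPoly (m : ℕ) : (ZMod 2)[X] := (X + 1) ^ m + X ^ m + 1

theorem coeff_parityPoly {m t : ℕ} (h0 : t ≠ 0) (ht : t ≠ m) :
    (parityPoly m).coeff t = (m.choose t : ZMod 2) := by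
  simp [parityPoly, coeff_X_add_one_pow, coeff_X_pow, coeff_one, h0, ht]

theorem odd_cast_one {z : ℤ} (hz : Odd z) : (z : ZMod 2) = 1 := by
  obtain ⟨r, rfl⟩ := hz
  rw [Int.cast_add, Int.cast_mul, Int.cast_ofNat, Int.cast_one,
    show (OfNat.ofNat 2 : ZMod 2) = 0 from rfl, zero_mul, zero_add]

theorem cast_zero_of_dvd {z : ℤ} (hz : 2 ∣ z) : (z : ZMod 2) = 0 :=
  (ZMod.intCast_zmod_eq_zero_iff_dvd z 2).2 hz

theorem dvd_of_cast_zero {z : ℤ} (hz : (z : ZMod 2) = 0) : 2 ∣ z :=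
  (ZMod.intCast_zmod_eq_zero_iff_dvd z 2).1 hz

/-- The identity forces binomial parities that cannot hold. -/
theorem no_square_identity {s : ℕ} (hs : 4 ≤ s) (hev : Even s)
    (h : ∀ l, 2 * l + 2 < s →
      ((s * 2).choose (2 * l) : ZMod 2) + (s.choose (2 * l + 2) : ZMod 2) = 0) : False := by
  obtain ⟨r, rfl⟩ := hev
  rw [← two_mul] at h hs
  have e1 : ∀ x : ℕ, (x.choose 1 : ZMod 2) = (x : ZMod 2) := fun x => by rw [Nat.choose_one_right]
  have hr : (r : ZMod 2) = 1 := by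
    have h0 := h 0 (by omega)
    rw [show (2 : ℕ) * 0 + 2 = 2 * 1 from rfl, choose_two_mul_zmod, e1] at h0
    simp only [mul_zero, Nat.choose_zero_right, Nat.cast_one] at h0
    rcases zmod_two_cases (r : ZMod 2) with h1 | h1
    · rw [h1] at h0
      exact absurd h0 (by decide)
    · exact h1
  obtain ⟨q, rfl⟩ := ZMod.natCast_eq_one_iff_odd.1 hr
  have hq : (q : ZMod 2) = 0 := by
    have h1 := h 1 (by omega)
    rw [show (2 : ℕ) * 1 + 2 = 2 * 2 from rfl, choose_two_mul_zmod, mul_comm (2 * (2 * q + 1)) 2,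
      choose_two_mul_zmod, e1, Nat.cast_mul, choose_cast_zmod (2 * q + 1) 2,
      show (2 * q + 1) % 2 = 1 by omega, show (2 * q + 1) / 2 = q by omega] at h1
    simpa [show ((2 : ℕ) : ZMod 2) = 0 from rfl,
      show (OfNat.ofNat 2 : ZMod 2) = 0 from rfl] using h1
  have hq2 : 2 ≤ q := by
    rcases (show q = 0 ∨ q = 1 ∨ 2 ≤ q by omega) with rfl | rfl | h2
    · omega
    · exact absurd hq (by decide)
    · exact h2
  have h2 := h 2 (by omega)
  rw [show (2 : ℕ) * 2 + 2 = 2 * 3 from rfl, choose_two_mul_zmod, mul_comm (2 * (2 * q + 1)) 2,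
    choose_two_mul_zmod, show (2 * (2 * q + 1)).choose 2 = (2 * (2 * q + 1)).choose (2 * 1)
      from rfl,
    choose_two_mul_zmod, e1, hr,
    choose_cast_zmod (2 * q + 1) 3, show (2 * q + 1) % 2 = 1 by omega,
    show (2 * q + 1) / 2 = q by omega] at h2
  simp [hq] at h2

/-- **`m` not a power of two.** -/
theorem no_square_factor_odd {m : ℕ} {P A R : ℤ[X]} {d : ℤ} (hm : 4 ≤ m) (hnp : ∀ a, m ≠ 2 ^ a)
    (hd : Odd d) (hdeg : P.natDegree = 2 * m) (hlead : P.coeff (2 * m) = 2 * d)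
    (heven : ∀ t, (P.coeff (2 * t) : ZMod 2) = (parityPoly m).coeff t)
    (hodd : ∀ l, P.coeff (2 * l + 1) = if l + 1 = m then -(2 * (d * m)) else 0)
    (hA : A.natDegree ≤ 2) (h : P = A * R ^ 2) : False := by
  obtain ⟨G, hG⟩ : ∃ G, G = parityPoly m := ⟨_, rfl⟩
  have hP0 : P ≠ 0 := fun h0 => by simp [h0] at hdeg; omega
  have hA0 : A ≠ 0 := fun h0 => hP0 (by simp [h, h0])
  have hR0 : R ≠ 0 := fun h0 => hP0 (by simp [h, h0])
  have hmap : P.map π = G ^ 2 := Polynomial.ext fun i => by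
    rw [coeff_map, eq_intCast]
    obtain ⟨l, rfl | rfl⟩ := Nat.even_or_odd' i
    · rw [heven, hG, (coeff_sq _ l).1]
    · rw [hodd, (coeff_sq _ l).2]
      split_ifs
      · exact cast_zero_of_dvd ⟨-(d * m), by ring⟩
      · exact Int.cast_zero
  obtain ⟨t, ht1, htm, ht⟩ := exists_choose_odd (m := m) (by omega) hnp
  have hG0 : G ≠ 0 := fun h0 => by
    have e := coeff_parityPoly (m := m) (t := t) (by omega) htm.ne
    rw [← hG, h0, ht] at e
    simp at e
  have hdeg2 : A.natDegree + 2 * R.natDegree = 2 * m := by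
    rw [← hdeg, h, natDegree_mul hA0 (pow_ne_zero _ hR0), natDegree_pow]
  have hlc : A.leadingCoeff * R.leadingCoeff ^ 2 = 2 * d := by
    rw [← leadingCoeff_pow, ← leadingCoeff_mul, ← h, leadingCoeff, hdeg, hlead]
  have hRlc : ¬ 2 ∣ R.leadingCoeff := by
    rintro ⟨r, hr⟩
    rw [hr] at hlc
    obtain ⟨e, he⟩ := hd
    have : (2 : ℤ) ∣ 1 := ⟨A.leadingCoeff * r ^ 2 - e, by subst he; linarith [hlc]⟩
    norm_num at this
  have hAlc : 2 ∣ A.leadingCoeff := by
    rcases Int.prime_two.dvd_mul.1 (Dvd.intro d hlc.symm) with h1 | h1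
    · exact h1
    · exact absurd (Int.prime_two.dvd_of_dvd_pow h1) hRlc
  have hAR : A.map π * (R.map π) ^ 2 = G ^ 2 := by
    rw [← hmap, h, Polynomial.map_mul, Polynomial.map_pow]
  have hA2 : A.natDegree = 2 := by
    rcases (show A.natDegree = 0 ∨ A.natDegree = 2 by omega) with h0 | h0
    · refine absurd (hAR.symm.trans ?_) (pow_ne_zero 2 hG0)
      rw [eq_C_of_natDegree_eq_zero h0, map_C, eq_intCast,
        cast_zero_of_dvd (by rwa [leadingCoeff, h0] at hAlc), C_0, zero_mul]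
    · exact h0
  have hRdeg : (R.map π).natDegree = m - 1 := by
    rw [natDegree_map_of_leadingCoeff_ne_zero _ (fun h0 => hRlc (dvd_of_cast_zero h0))]
    omega
  have hAπ0 : A.map π ≠ 0 := fun h0 => pow_ne_zero 2 hG0 (by rw [← hAR, h0, zero_mul])
  have hRπ0 : R.map π ≠ 0 := fun h0 => pow_ne_zero 2 hG0 (by rw [← hAR, h0]; simp)
  have hAd : (A.map π).natDegree ≤ 1 := natDegree_le_iff_coeff_eq_zero.2 fun i hi => by
    rw [coeff_map, eq_intCast]
    rcases (show i = 2 ∨ 2 < i by omega) with rfl | hi2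
    · exact cast_zero_of_dvd (by rwa [leadingCoeff, hA2] at hAlc)
    · rw [coeff_eq_zero_of_natDegree_lt (by omega), Int.cast_zero]
  have hd3 := congrArg natDegree hAR
  rw [natDegree_mul hAπ0 (pow_ne_zero _ hRπ0), natDegree_pow, natDegree_pow, hRdeg] at hd3
  have hA1 : A.map π = 1 := by
    obtain ⟨c, hc⟩ := natDegree_eq_zero.1 (show (A.map π).natDegree = 0 by omega)
    rcases zmod_two_cases c with rfl | rfl
    · exact absurd (hc ▸ C_0) hAπ0
    · rw [← hc, C_1]
  have hRG : R.map π = G := sq_inj (by rw [← hAR, hA1, one_mul])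
  have hGdeg : G.natDegree = m - 1 := hRG ▸ hRdeg
  obtain ⟨s, rfl⟩ : ∃ s, m = s + 1 := ⟨m - 1, by omega⟩
  rw [Nat.add_sub_cancel] at hGdeg
  have hs : ((s : ℕ) : ZMod 2) = 0 := by
    have h1 := leadingCoeff_ne_zero.2 hG0
    rw [leadingCoeff, hGdeg, hG, coeff_parityPoly (by omega) (by omega),
      Nat.choose_succ_self_right, Nat.cast_succ] at h1
    rcases zmod_two_cases (s : ZMod 2) with h2 | h2
    · exact h2
    · exact absurd (by rw [h2]; rfl) h1
  have hsev : Even s := ZMod.natCast_eq_zero_iff_even.1 hs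
  obtain ⟨a, ha⟩ : 2 ∣ A.coeff 2 := by rwa [leadingCoeff, hA2] at hAlc
  obtain ⟨b, hb⟩ : 2 ∣ A.coeff 1 := dvd_of_cast_zero (by
    have h1 := congrArg (fun f : (ZMod 2)[X] => f.coeff 1) hA1
    simpa [coeff_map, coeff_one] using h1)
  obtain ⟨Q, hQ⟩ : ∃ Q, Q = (C (2 * a) * X + C b) * R ^ 2 + A * R * R.derivative := ⟨_, rfl⟩
  have hAd' : A.derivative = C 2 * (C (2 * a) * X + C b) := by
    conv_lhs => rw [eq_quadratic_of_degree_le_two (natDegree_le_iff_degree_le.1 hA)]
    rw [ha, hb]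
    rw [derivative_add, derivative_add, derivative_C_mul, derivative_C_mul, derivative_X_pow,
      derivative_X, derivative_C, map_mul, map_mul, Nat.cast_ofNat]
    ring
  have hQ2 : P.derivative = C 2 * Q := by
    rw [h, derivative_mul, hAd', derivative_pow, hQ, Nat.cast_ofNat]
    ring
  have hQπ : Q.map π = C (b : ZMod 2) * G ^ 2 + G * G.derivative := by
    rw [hQ, Polynomial.map_add, Polynomial.map_mul, Polynomial.map_mul, Polynomial.map_mul,
      Polynomial.map_pow, Polynomial.map_add, Polynomial.map_mul, map_C, map_C, map_X,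
      ← derivative_map, hA1, hRG, eq_intCast, eq_intCast, cast_zero_of_dvd ⟨a, rfl⟩, C_0,
      zero_mul, zero_add, one_mul]
  have hQc : ∀ i, 2 * Q.coeff i = P.coeff (i + 1) * ((i : ℤ) + 1) := fun i => by
    rw [← coeff_C_mul, ← hQ2, coeff_derivative]
  have hid : Q.map π = X ^ (2 * s) + X * G.derivative ^ 2 := Polynomial.ext fun i => by
    rw [coeff_map, eq_intCast, coeff_add, coeff_X_pow]
    have h2 := hQc i
    obtain ⟨l, rfl | rfl⟩ := Nat.even_or_odd' i
    · have hX : (X * G.derivative ^ 2).coeff (2 * l) = 0 := by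
        rcases l with _ | l
        · simp
        · rw [show 2 * (l + 1) = 2 * l + 1 + 1 by ring, coeff_X_mul, (coeff_sq _ l).2]
      rw [hX, add_zero, hodd] at *
      rcases eq_or_ne l s with rfl | hl
      · rw [if_pos rfl] at h2 ⊢
        rw [show Q.coeff (2 * l) = -(d * ((2 * l : ℕ) + 1 : ℤ) * (2 * (l / 2 : ℕ) + 1)) by
          have : ((l + 1 : ℕ) : ℤ) = 2 * (l / 2 : ℕ) + 1 := by
            have := Nat.even_iff.1 hsev; omega
          rw [← this]; push_cast at h2 ⊢; linarith]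
        exact odd_cast_one (((hd.mul ⟨l, by push_cast; ring⟩).mul ⟨_, rfl⟩).neg)
      · rw [if_neg (by omega)] at h2 ⊢
        rw [show Q.coeff (2 * l) = 0 by simpa using h2, Int.cast_zero]
    · rw [if_neg (by omega), zero_add, coeff_X_mul, (coeff_sq _ l).1, coeff_derivative,
        show Q.coeff (2 * l + 1) = P.coeff (2 * (l + 1)) * ((l : ℤ) + 1) by
          rw [show 2 * (l + 1) = 2 * l + 1 + 1 by ring]; push_cast at h2; linarith,
        Int.cast_mul, heven, hG]
      push_cast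
      rfl
  rw [hQπ] at hid
  rcases zmod_two_cases (b : ZMod 2) with hb0 | hb1
  · rw [hb0, C_0, zero_mul, zero_add] at hid
    have h1 := congrArg (fun f : (ZMod 2)[X] => f.coeff (2 * s)) hid
    have hd' : G.derivative.natDegree ≤ s - 1 := hGdeg ▸ natDegree_derivative_le G
    have h3 : (G * G.derivative).natDegree < 2 * s := natDegree_mul_le.trans_lt (by omega)
    have h4 : (X * G.derivative ^ 2).natDegree < 2 * s := natDegree_mul_le.trans_lt (by
      rw [natDegree_X, natDegree_pow]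
      omega)
    simp [coeff_eq_zero_of_natDegree_lt h3, coeff_eq_zero_of_natDegree_lt h4] at h1
  rw [hb1, C_1, one_mul] at hid
  have hG' : G.derivative = (X + 1) ^ s + X ^ s := by
    rw [hG, parityPoly]
    simp [derivative_pow, hs]
  obtain ⟨u, hu⟩ : ∃ u : (ZMod 2)[X], u = (X + 1) ^ s := ⟨_, rfl⟩
  obtain ⟨v, hv⟩ : ∃ v : (ZMod 2)[X], v = X ^ s := ⟨_, rfl⟩
  rw [hG', hG, parityPoly, pow_succ (X + 1 : (ZMod 2)[X]) s, pow_succ (X : (ZMod 2)[X]) s,
    mul_comm 2 s, pow_mul, ← hu, ← hv] at hid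
  have hT : X ^ 2 * u ^ 2 + (X ^ 2 + 1) * v ^ 2 + (u + 1) * (v + 1) = 0 := by
    linear_combination hid - ((X + 1) * u ^ 2 + (X ^ 2 + X) * u * v - v ^ 2
      + (X + 1) * u + X * v) * two_zmod
  refine no_square_identity (s := s) (by have := Nat.even_iff.1 hsev; omega) hsev fun l hl => ?_
  rw [hu, hv] at hT
  have hT' : (X : (ZMod 2)[X]) ^ 2 * (X + 1) ^ (s * 2) + X ^ (s * 2 + 2) + X ^ (s * 2)
      + (X + 1) ^ s * X ^ s + (X + 1) ^ s + X ^ s + 1 = 0 := by
    linear_combination hT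
  have h1 := congrArg (fun f : (ZMod 2)[X] => f.coeff (2 * l + 2)) hT'
  simpa [coeff_X_pow_mul', coeff_mul_X_pow', coeff_X_add_one_pow, coeff_X_pow, coeff_one,
    show ¬ 2 * l + 2 = s * 2 + 2 by omega, show ¬ 2 * l + 2 = s * 2 by omega,
    show ¬ s ≤ 2 * l + 2 by omega, show ¬ 2 * l + 2 = s by omega,
    show ¬ 2 * l = s * 2 by omega] using h1

/-- **`m = 2 h` a power of two.** -/
theorem no_square_factor_pow {h : ℕ} {P A R : ℤ[X]} (hh : 2 ≤ h) (hdeg : P.natDegree = 4 * h)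
    (hlead : Odd (P.coeff (4 * h))) (hmap : P.map π = (X ^ (2 * h) + X ^ h) ^ 2)
    (h1 : P.coeff h % 4 = 2) (h3 : P.coeff (3 * h) % 4 = 2) (hA : A.natDegree ≤ 2)
    (hP : P = A * R ^ 2) : False := by
  obtain ⟨G, hG⟩ : ∃ G : ℤ[X], G = X ^ (2 * h) + X ^ h := ⟨_, rfl⟩
  have hP0 : P ≠ 0 := fun h0 => by simp [h0] at hdeg; omega
  have hA0 : A ≠ 0 := fun h0 => hP0 (by simp [hP, h0])
  have hR0 : R ≠ 0 := fun h0 => hP0 (by simp [hP, h0])
  have hGπ : G.map π = X ^ (2 * h) + X ^ h := by simp [hG]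
  rw [← hGπ] at hmap
  have hGsq : G ^ 2 = X ^ (4 * h) + C 2 * X ^ (3 * h) + X ^ (2 * h) := by
    rw [hG, C_ofNat, show 3 * h = 2 * h + h by ring, show 4 * h = 2 * h + 2 * h by ring, pow_add,
      pow_add]
    ring
  have hG1 : (G ^ 2).coeff h = 0 ∧ (G ^ 2).coeff (3 * h) = 2 := by
    rw [hGsq]
    simp [coeff_X_pow, show h ≠ 4 * h by omega, show h ≠ 3 * h by omega, show h ≠ 2 * h by omega,
      show 3 * h ≠ 4 * h by omega, show 3 * h ≠ 2 * h by omega]
  have hdeg2 : A.natDegree + 2 * R.natDegree = 4 * h := by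
    rw [← hdeg, hP, natDegree_mul hA0 (pow_ne_zero _ hR0), natDegree_pow]
  have hAlc : Odd A.leadingCoeff := Int.Odd.of_mul_left (by
    rw [← leadingCoeff_mul, ← hP, leadingCoeff, hdeg]
    exact hlead : Odd (A.leadingCoeff * (R ^ 2).leadingCoeff))
  have hAR : A.map π * (R.map π) ^ 2 = (G.map π) ^ 2 := by
    rw [← hmap, hP, Polynomial.map_mul, Polynomial.map_pow]
  rcases (show A.natDegree = 0 ∨ A.natDegree = 2 by omega) with h0 | hA2
  · obtain ⟨a, rfl⟩ := natDegree_eq_zero.1 h0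
    rw [leadingCoeff_C] at hAlc
    rw [map_C, eq_intCast, odd_cast_one hAlc, C_1, one_mul] at hAR
    obtain ⟨H, rfl⟩ := exists_two_mul (sq_inj hAR)
    have e : P = C a * G ^ 2 + C 4 * (C a * (G * H + H ^ 2)) := by
      rw [hP, C_ofNat, C_ofNat]
      ring
    rw [e, coeff_add, coeff_C_mul, coeff_C_mul, hG1.1, mul_zero, zero_add] at h1
    omega
  have h2c : (A.coeff 2 : ZMod 2) = 1 := odd_cast_one (by rwa [leadingCoeff, hA2] at hAlc)
  obtain ⟨g, hg⟩ : ∃ g : ZMod 2, g = (A.coeff 0 : ZMod 2) := ⟨_, rfl⟩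
  have hA1 : (A.coeff 1 : ZMod 2) = 0 := by
    have hRπ : (R.map π) ^ 2 ≠ 0 := pow_ne_zero 2 fun h0 => by
      have e := congrArg (fun f : (ZMod 2)[X] => f.coeff h) (show G.map π = 0 from
        sq_inj (by rw [← hAR, h0]; simp))
      simp [hGπ, coeff_X_pow, show h ≠ 2 * h by omega] at e
    have hd := congrArg derivative hAR
    rw [derivative_mul, derivative_pow, derivative_pow, Nat.cast_ofNat,
      show (OfNat.ofNat 2 : ZMod 2) = 0 from rfl, C_0] at hd
    simp only [zero_mul, mul_zero, add_zero] at hd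
    have hd0 := congrArg (fun f : (ZMod 2)[X] => f.coeff 0)
      ((mul_eq_zero.1 hd).resolve_right hRπ)
    simpa [coeff_derivative, coeff_map] using hd0
  have hAπ : A.map π = (X + C g) ^ 2 := by
    conv_lhs => rw [eq_quadratic_of_degree_le_two (natDegree_le_iff_degree_le.1 hA)]
    simp only [Polynomial.map_add, Polynomial.map_mul, Polynomial.map_pow, map_C, map_X]
    rw [eq_intCast, eq_intCast, eq_intCast, h2c, hA1, ← hg, C_1, C_0, one_mul, zero_mul, add_zero]
    have hgg : C g * C g = C g := by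
      rcases zmod_two_cases g with rfl | rfl <;> rw [← C_mul] <;> rfl
    linear_combination -(X * C g) * two_zmod - hgg
  obtain ⟨L, hL⟩ : ∃ L : ℤ[X], L = X + C (A.coeff 0) := ⟨_, rfl⟩
  have hLπ : L.map π = X + C g := by simp [hL, hg]
  obtain ⟨M, hM⟩ := exists_two_mul (F := A) (G := L ^ 2) (by
    rw [hAπ, Polynomial.map_pow, hLπ])
  have hMd : M.natDegree ≤ 2 := by
    have e : C 2 * M = A - L ^ 2 := by rw [hM]; ring
    rw [← natDegree_C_mul (two_ne_zero (α := ℤ)), e]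
    refine (natDegree_sub_le _ _).trans (max_le hA ?_)
    rw [natDegree_pow, hL, natDegree_X_add_C]
  obtain ⟨H, hH⟩ := exists_two_mul (F := L * R) (G := G) (sq_inj (by
    rw [Polynomial.map_mul, mul_pow, hLπ, ← hAπ, hAR]))
  have e : P = G ^ 2 + C 4 * (G * H + H ^ 2) + C 2 * (M * R ^ 2) := by
    calc P = (L * R) ^ 2 + C 2 * (M * R ^ 2) := by rw [hP, hM]; ring
      _ = _ := by rw [hH, C_ofNat, C_ofNat]; ring
  obtain ⟨W, hW⟩ : ∃ W, W = M * R ^ 2 := ⟨_, rfl⟩
  have hWh : (W.coeff h : ZMod 2) = 1 ∧ (W.coeff (3 * h) : ZMod 2) = 0 := by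
    rw [e, ← hW] at h1 h3
    simp only [coeff_add, coeff_C_mul, hG1.1, hG1.2] at h1 h3
    exact ⟨odd_cast_one (Int.odd_iff.2 (by omega)), cast_zero_of_dvd (by omega)⟩
  have hWc : ∀ i, (W.coeff i : ZMod 2) = ((M.map π) * (R.map π) ^ 2).coeff i := fun i => by
    rw [← Polynomial.map_pow, ← Polynomial.map_mul, ← hW, coeff_map, eq_intCast]
  have hLR : (X + C g) * R.map π = X ^ (2 * h) + X ^ h := by
    rw [← hLπ, ← hGπ]
    exact sq_inj (by rw [mul_pow, hLπ, ← hAπ, hAR])
  rcases zmod_two_cases g with rfl | rfl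
  · obtain ⟨j, rfl⟩ : ∃ j, h = j + 2 := ⟨h - 2, by omega⟩
    rw [C_0, add_zero] at hLR
    have hR : R.map π = X ^ (2 * j + 3) + X ^ (j + 1) := mul_left_cancel₀ X_ne_zero (by
      rw [hLR]; ring)
    have hR2 : (R.map π) ^ 2 = X ^ (4 * j + 6) + X ^ (2 * j + 2) := by
      rw [hR]
      linear_combination (X ^ (3 * j + 4)) * two_zmod
    rw [hWc, hWc, hR2, mul_add] at hWh
    simp only [coeff_add, coeff_mul_X_pow'] at hWh
    rcases Nat.eq_zero_or_pos j with rfl | hj
    · have hM4 : (M.map π).coeff 4 = 0 :=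
        coeff_eq_zero_of_natDegree_lt ((natDegree_map_le).trans_lt (by omega))
      simp [hM4] at hWh
      exact one_ne_zero (hWh.1.symm.trans hWh.2)
    · simp [show ¬ 4 * j + 6 ≤ j + 2 by omega, show ¬ 2 * j + 2 ≤ j + 2 by omega] at hWh
  · rw [C_1] at hLR
    have hdvd : (X : (ZMod 2)[X]) ^ h ∣ (X + 1) * R.map π := by
      rw [hLR]
      exact dvd_add (pow_dvd_pow X (by omega)) dvd_rfl
    obtain ⟨Y, hY⟩ := prime_X.pow_dvd_of_dvd_mul_left h
      (by rw [X_dvd_iff]; simp) hdvd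
    rw [hWc, hY, mul_pow, ← pow_mul, mul_left_comm, coeff_X_pow_mul',
      if_neg (by omega)] at hWh
    exact zero_ne_one hWh.1

end FA.SchaefferRoots

end
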