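import Fermat.Agent.SchaefferRoots.Parity
import Fermat.Agent.SchaefferEquation.Polynomial
import Mathlib.NumberTheory.Bernoulli
import Mathlib.RingTheory.Polynomial.GaussLemma

/-!
# `B (2 m) (X) - B (2 m)` is not `A R ^ 2` with `deg A ≤ 2`, for `m ≥ 4`

By von Staudt and Clausen the numbers `2 B (2 j) D` are odd for an odd `D`; so an integral multiple
has the parities of `Parity`, and Gauss's lemma brings a factorisation down to `ℤ`.
-/

set_option autoImplicit false

noncomputable section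

namespace FA.SchaefferRoots

open Polynomial Finset

/-- One odd `D` makes every `2 B (2 j) D`, `j < m`, an odd integer. -/
theorem exists_odd_scale (m : ℕ) : ∃ D : ℕ, Odd D ∧ ∀ j, 1 ≤ j → j < m →
    ∃ β : ℤ, Odd β ∧ 2 * _root_.bernoulli (2 * j) * D = β := by
  obtain ⟨S, hS⟩ : ∃ S : Finset ℕ,
      S = (range (2 * m + 2)).filter fun x => x.Prime ∧ x ≠ 2 := ⟨_, rfl⟩
  refine ⟨∏ x ∈ S, x, Finset.prod_induction _ Odd (fun _ _ => Odd.mul) odd_one fun x hx => ?_,
    fun j hj hjm => ?_⟩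
  · rw [hS, mem_filter] at hx
    exact hx.2.1.odd_of_ne_two hx.2.2
  set D := ∏ x ∈ S, x
  have hDodd : Odd D := Finset.prod_induction _ Odd (fun _ _ => Odd.mul) odd_one fun x hx => by
    rw [hS, mem_filter] at hx
    exact hx.2.1.odd_of_ne_two hx.2.2
  obtain ⟨T, hT⟩ := Bernoulli.vonStaudt_clausen j
  set s := (range (2 * j + 2)).filter fun x => x.Prime ∧ (x - 1) ∣ 2 * j with hs
  have h2 : 2 ∈ s := by
    rw [hs, mem_filter, mem_range]
    exact ⟨by omega, Nat.prime_two, one_dvd _⟩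
  have hdvd : ∀ x ∈ s.erase 2, x ∣ D ∧ x ≠ 0 := fun x hx => by
    obtain ⟨hne, hx⟩ := mem_erase.1 hx
    rw [hs, mem_filter, mem_range] at hx
    exact ⟨dvd_prod_of_mem _ (by rw [hS, mem_filter, mem_range]; exact ⟨by omega, hx.2.1, hne⟩),
      hx.2.1.ne_zero⟩
  refine ⟨2 * (T * D - ∑ x ∈ s.erase 2, ((D / x : ℕ) : ℤ)) - D,
    (even_two_mul _).sub_odd ((Int.odd_coe_nat D).2 hDodd), ?_⟩
  have hsum : ∀ x ∈ s.erase 2, (((D / x : ℕ) : ℤ) : ℚ) = (D : ℚ) * (1 / x) := fun x hx => by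
    rw [Int.cast_natCast, Nat.cast_div (hdvd x hx).1 (Nat.cast_ne_zero.2 (hdvd x hx).2),
      mul_one_div]
  rw [show _root_.bernoulli (2 * j) = (T : ℚ) - ∑ x ∈ s, (1 : ℚ) / x by rw [hT]; simp [hs],
    ← add_sum_erase s _ h2, Int.cast_sub, Int.cast_mul, Int.cast_sub, Int.cast_sum,
    sum_congr rfl hsum, ← mul_sum]
  push_cast
  ring

/-- The Bernoulli polynomial without its constant term. -/
def centredBernoulli (n : ℕ) : ℚ[X] := Polynomial.bernoulli n - C (_root_.bernoulli n)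

theorem coeff_centredBernoulli (n i : ℕ) : (centredBernoulli n).coeff i =
    if i = 0 ∨ n < i then 0 else _root_.bernoulli (n - i) * (n.choose i : ℚ) := by
  rw [centredBernoulli, coeff_sub, coeff_bernoulli, coeff_C]
  rcases eq_or_ne i 0 with rfl | hi
  · simp
  · by_cases hin : i ≤ n
    · simp [hi, hin, Nat.not_lt.2 hin]
    · simp [hi, hin, Nat.lt_of_not_le hin]

/-- An integral multiple of the centred Bernoulli polynomial and its coefficients. -/
theorem exists_int_model {m u D : ℕ} (hm : 2 ≤ m) (hu : u ≠ 0) (hD : D ≠ 0)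
    (hβ : ∀ j, 1 ≤ j → j < m → ∃ β : ℤ, Odd β ∧ 2 * _root_.bernoulli (2 * j) * D = β)
    (heven : ∀ t, 1 ≤ t → t < m → 2 ∣ u * (2 * m).choose (2 * t)) :
    ∃ P : ℤ[X], P.map (Int.castRingHom ℚ) = C ((u * D : ℕ) : ℚ) * centredBernoulli (2 * m) ∧
      P.natDegree = 2 * m ∧ P.coeff (2 * m) = (u * D : ℕ) ∧ P.coeff 0 = 0 ∧
      (∀ l, P.coeff (2 * l + 1) = if l + 1 = m then -((u * D : ℕ) * (m : ℤ)) else 0) ∧
      ∀ t, 1 ≤ t → t < m → ∃ β : ℤ, Odd β ∧
        2 * P.coeff (2 * t) = (u * (2 * m).choose (2 * t) : ℕ) * β := by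
  obtain ⟨c, hc⟩ : ∃ c : ℚ, c = ((u * D : ℕ) : ℚ) := ⟨_, rfl⟩
  obtain ⟨F, hF⟩ : ∃ F, F = C c * centredBernoulli (2 * m) := ⟨_, rfl⟩
  have hout : ∀ i, i = 0 ∨ 2 * m < i → F.coeff i = 0 := fun i hi => by
    rw [hF, coeff_C_mul, coeff_centredBernoulli, if_pos hi, mul_zero]
  have hin : ∀ i, i ≠ 0 → i ≤ 2 * m →
      F.coeff i = c * (_root_.bernoulli (2 * m - i) * ((2 * m).choose i : ℚ)) := fun i h1 h2 => by
    rw [hF, coeff_C_mul, coeff_centredBernoulli, if_neg (by omega)]
  have htop : F.coeff (2 * m) = ((u * D : ℕ) : ℤ) := by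
    simp [hin (2 * m) (by omega) le_rfl, hc]
  have hodd : ∀ l, F.coeff (2 * l + 1) =
      ((if l + 1 = m then -((u * D : ℕ) * (m : ℤ)) else 0 : ℤ) : ℚ) := fun l => by
    by_cases hl : 2 * l + 1 ≤ 2 * m
    · rw [hin _ (by omega) hl]
      split_ifs with h
      · subst h
        rw [show 2 * (l + 1) - (2 * l + 1) = 1 by omega, _root_.bernoulli_one,
          show 2 * (l + 1) = 2 * l + 1 + 1 by ring, Nat.choose_succ_self_right, hc]
        push_cast
        ring
      · rw [bernoulli_eq_zero_of_odd ⟨m - l - 1, by omega⟩ (by omega)]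
        simp
    · rw [hout _ (Or.inr (by omega)), if_neg (by omega), Int.cast_zero]
  have hev : ∀ t, 1 ≤ t → t < m → ∃ z β : ℤ, Odd β ∧ F.coeff (2 * t) = (z : ℚ) ∧
      2 * z = (u * (2 * m).choose (2 * t) : ℕ) * β := fun t h1 h2 => by
    obtain ⟨β, hβo, hβe⟩ := hβ (m - t) (by omega) (by omega)
    obtain ⟨w, hw⟩ := heven t h1 h2
    refine ⟨w * β, β, hβo, ?_, by rw [hw]; push_cast; ring⟩
    have hw' : (u : ℚ) * ((2 * m).choose (2 * t) : ℚ) = 2 * (w : ℚ) := by exact_mod_cast hw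
    rw [hin _ (by omega) (by omega), show 2 * m - 2 * t = 2 * (m - t) by omega, hc, Int.cast_mul,
      ← hβe]
    push_cast
    linear_combination (_root_.bernoulli (2 * (m - t)) * (D : ℚ)) * hw'
  have hint : ∀ i, F.coeff i ∈ Set.range (Int.castRingHom ℚ) := fun i => by
    obtain ⟨l, rfl | rfl⟩ := Nat.even_or_odd' i
    · rcases (show l = 0 ∨ m < l ∨ l = m ∨ (1 ≤ l ∧ l < m) by omega) with h | h | rfl | ⟨h1, h2⟩
      · exact ⟨0, by rw [hout _ (Or.inl (by omega))]; simp⟩
      · exact ⟨0, by rw [hout _ (Or.inr (by omega))]; simp⟩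
      · exact ⟨_, htop.symm⟩
      · obtain ⟨z, β, -, hz, -⟩ := hev l h1 h2
        exact ⟨z, hz.symm⟩
    · exact ⟨_, (hodd l).symm⟩
  obtain ⟨P, hP⟩ := (lifts_iff_coeff_lifts F).2 hint
  rw [coe_mapRingHom] at hP
  have hPc : ∀ i, (P.coeff i : ℚ) = F.coeff i := fun i => by rw [← hP, coeff_map, eq_intCast]
  have hlead : P.coeff (2 * m) = (u * D : ℕ) := Int.cast_injective (α := ℚ) (by rw [hPc, htop])
  refine ⟨P, by rw [hP, hF, hc], natDegree_eq_of_le_of_coeff_ne_zero
    (natDegree_le_iff_coeff_eq_zero.2 fun i hi =>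
      Int.cast_injective (α := ℚ) (by rw [hPc, hout i (Or.inr hi), Int.cast_zero])) ?_, hlead,
    Int.cast_injective (α := ℚ) (by rw [hPc, hout 0 (Or.inl rfl), Int.cast_zero]),
    fun l => Int.cast_injective (α := ℚ) (by rw [hPc, hodd]), fun t h1 h2 => ?_⟩
  · rw [hlead]
    exact_mod_cast mul_ne_zero hu hD
  · obtain ⟨z, β, hβo, hz, hzz⟩ := hev t h1 h2
    exact ⟨β, hβo, by rw [Int.cast_injective (α := ℚ) ((hPc _).trans hz), hzz]⟩

/-- Gauss: the factorisation over `ℚ` gives one over `ℤ`. -/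
theorem exists_int_factors {P : ℤ[X]} (hP : P ≠ 0) {A R : ℚ[X]}
    (h : P.map (Int.castRingHom ℚ) = A * R ^ 2) :
    ∃ A' R' : ℤ[X], P = A' * R' ^ 2 ∧ A'.natDegree = A.natDegree := by
  have hinj : Function.Injective (Int.castRingHom ℚ) := Int.cast_injective
  obtain ⟨D, f, hD, hf⟩ := SchaefferEquation.exists_integral_multiple R
  have hPq : P.map (Int.castRingHom ℚ) ≠ 0 := (Polynomial.map_ne_zero_iff hinj).2 hP
  have hR : R ≠ 0 := fun h0 => hPq (by rw [h, h0]; simp)
  have hA : A ≠ 0 := fun h0 => hPq (by rw [h, h0]; simp)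
  have hDq : (D : ℚ) ≠ 0 := Int.cast_ne_zero.2 hD
  obtain ⟨S, hS⟩ : ∃ S, S = f.primPart := ⟨_, rfl⟩
  have hf0 : f ≠ 0 := fun h0 => mul_ne_zero (C_ne_zero.2 hDq) hR (by rw [← hf, h0]; simp)
  have hcont : (f.content : ℚ) ≠ 0 := Int.cast_ne_zero.2 fun h0 => hf0 (content_eq_zero_iff.1 h0)
  have hSR : R = C ((f.content : ℚ) / D) * S.map (Int.castRingHom ℚ) := by
    refine mul_left_cancel₀ (C_ne_zero.2 hDq) ?_
    rw [← hf, ← mul_assoc, ← C_mul, mul_div_cancel₀ _ hDq, hS]
    conv_lhs => rw [f.eq_C_content_mul_primPart, Polynomial.map_mul, map_C, eq_intCast]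
  have hSprim : (S ^ 2).IsPrimitive := by
    rw [sq]
    exact (hS ▸ f.isPrimitive_primPart).mul (hS ▸ f.isPrimitive_primPart)
  obtain ⟨A', hA'⟩ := (IsPrimitive.Int.dvd_iff_map_cast_dvd_map_cast (S ^ 2) P hSprim).2
    ⟨A * C ((f.content : ℚ) / D) ^ 2, by rw [h, hSR, Polynomial.map_pow]; ring⟩
  refine ⟨A', S, by rw [hA', mul_comm], ?_⟩
  have h1 : A'.map (Int.castRingHom ℚ) = A * C ((f.content : ℚ) / D) ^ 2 := by
    refine mul_left_cancel₀ (pow_ne_zero 2 (fun h0 => hR (by rw [hSR, h0, mul_zero]) :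
      S.map (Int.castRingHom ℚ) ≠ 0)) ?_
    rw [← Polynomial.map_pow, ← Polynomial.map_mul, ← hA', h, hSR, Polynomial.map_pow]
    ring
  rw [← natDegree_map_eq_of_injective hinj A', h1, ← C_pow,
    natDegree_mul_C (pow_ne_zero 2 (div_ne_zero hcont hDq))]

/-- **The square-free part of `B (2 m) (X) - B (2 m)` has degree at least three.** -/
theorem centredBernoulli_ne_mul_sq {m : ℕ} (hm : 4 ≤ m) {A R : ℚ[X]} (hA : A.natDegree ≤ 2) :
    centredBernoulli (2 * m) ≠ A * R ^ 2 := by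
  intro h
  obtain ⟨D, hD, hβ⟩ := exists_odd_scale m
  have hDz : Odd ((D : ℕ) : ℤ) := (Int.odd_coe_nat D).2 hD
  by_cases hp : ∃ a, m = 2 ^ a
  · obtain ⟨a, rfl⟩ := hp
    obtain ⟨b, rfl⟩ : ∃ b, a = b + 2 := ⟨a - 2, by
      have : 2 ^ 1 < 2 ^ a := by omega
      have := (Nat.pow_lt_pow_iff_right one_lt_two).1 this
      omega⟩
    obtain ⟨e, he⟩ : ∃ e, e = 2 ^ (b + 1) := ⟨_, rfl⟩
    have hm2 : 2 ^ (b + 2) = 2 * e := by rw [he, ← pow_succ']
    have he2 : 2 ≤ e := by rw [he]; exact Nat.le_self_pow (by omega) 2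
    have hpow : 2 * 2 ^ (b + 2) = 2 ^ (b + 3) := by rw [← pow_succ']
    have hval : ∀ t, 1 ≤ t → t < 2 ^ (b + 2) →
        ((2 * 2 ^ (b + 2)).choose (2 * t)).factorization 2 = b + 2 - t.factorization 2 :=
      fun t h1 h2 => by
        rw [hpow, Nat.factorization_choose_prime_pow Nat.prime_two (by omega) (by omega),
          Nat.factorization_mul two_ne_zero (by omega), Finsupp.add_apply,
          Nat.prime_two.factorization_self]
        omega
    have htlt : ∀ t, 1 ≤ t → t < 2 ^ (b + 2) → t.factorization 2 ≤ b + 1 := fun t h1 h2 => by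
      by_contra hc
      have := Nat.le_of_dvd h1 ((Nat.prime_two.pow_dvd_iff_le_factorization (by omega)).2
        (show b + 2 ≤ t.factorization 2 by omega))
      omega
    obtain ⟨P, hP, hdeg, hlead, h0, hodd, hev⟩ := exists_int_model (m := 2 ^ (b + 2)) (u := 1)
      (by omega) one_ne_zero hD.pos.ne' hβ fun t h1 h2 => by
        rw [one_mul]
        refine Nat.dvd_of_factorization_pos (p := 2) ?_
        have := hval t h1 h2
        have := htlt t h1 h2
        omega
    have hcoef : ∀ t, 1 ≤ t → t < 2 ^ (b + 2) → ∀ v, t.factorization 2 + v = b + 1 →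
        ∃ o : ℤ, Odd o ∧ P.coeff (2 * t) = 2 ^ v * o := fun t h1 h2 v hv => by
      obtain ⟨β, hβo, he'⟩ := hev t h1 h2
      have hc0 : (2 * 2 ^ (b + 2)).choose (2 * t) ≠ 0 := (Nat.choose_pos (by omega)).ne'
      obtain ⟨w, hw⟩ := (Nat.prime_two.pow_dvd_iff_le_factorization hc0).2
        (show v + 1 ≤ ((2 * 2 ^ (b + 2)).choose (2 * t)).factorization 2 by
          rw [hval t h1 h2]; omega)
      have hwo : Odd w := by
        rw [Nat.odd_iff]
        by_contra hc
        have := (Nat.prime_two.pow_dvd_iff_le_factorization hc0).1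
          (show 2 ^ (v + 2) ∣ _ from hw ▸ by
            rw [pow_succ 2 (v + 1)]; exact Nat.mul_dvd_mul_left _ (by omega))
        rw [hval t h1 h2] at this
        omega
      refine ⟨w * β, ((Int.odd_coe_nat w).2 hwo).mul hβo, mul_left_cancel₀ two_ne_zero
        (he'.trans ?_)⟩
      rw [one_mul, hw]
      push_cast
      ring
    have hh1 : P.coeff e % 4 = 2 := by
      obtain ⟨o, ho, hoe⟩ := hcoef (2 ^ b) Nat.one_le_two_pow
        (Nat.pow_lt_pow_right one_lt_two (by omega)) 1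
        (by rw [Nat.prime_two.factorization_pow]; simp)
      rw [show e = 2 * 2 ^ b by rw [he, pow_succ'], hoe]
      obtain ⟨r, rfl⟩ := ho
      omega
    have hh3 : P.coeff (3 * e) % 4 = 2 := by
      have hlt : 3 * 2 ^ b < 2 ^ (b + 2) := by rw [pow_add]; have := Nat.two_pow_pos b; omega
      obtain ⟨o, ho, hoe⟩ := hcoef (3 * 2 ^ b) (by have := Nat.two_pow_pos b; omega) hlt 1 (by
        rw [Nat.factorization_mul three_ne_zero (pow_ne_zero _ two_ne_zero), Finsupp.add_apply,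
          Nat.factorization_eq_zero_of_not_dvd (by norm_num), Nat.prime_two.factorization_pow]
        simp)
      rw [show 3 * e = 2 * (3 * 2 ^ b) by rw [he, pow_succ']; ring, hoe]
      obtain ⟨r, rfl⟩ := ho
      omega
    have hne : P ≠ 0 := fun h0' => by rw [h0'] at hdeg; simp at hdeg
    obtain ⟨A', R', hPAR, hd⟩ := exists_int_factors hne (A := C ((1 * D : ℕ) : ℚ) * A) (R := R)
      (by rw [hP, h]; ring)
    rw [natDegree_C_mul (by exact_mod_cast (one_mul D).symm ▸ hD.pos.ne')] at hd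
    refine no_square_factor_pow he2 (by rw [hdeg]; omega) (by
      rw [show 4 * e = 2 * 2 ^ (b + 2) by omega, hlead, one_mul]
      exact hDz) (Polynomial.ext fun i => ?_) hh1 hh3 (hd ▸ hA) hPAR
    rw [coeff_map, eq_intCast]
    obtain ⟨l, rfl | rfl⟩ := Nat.even_or_odd' i
    · rw [(coeff_sq _ l).1, coeff_add, coeff_X_pow, coeff_X_pow]
      rcases (show l = 2 * e ∨ 2 * e < l ∨ l = 0 ∨ (1 ≤ l ∧ l < 2 ^ (b + 2)) by omega) with
        rfl | hl | rfl | ⟨h1, h2⟩
      · rw [← hm2, hlead, if_pos rfl, if_neg (by omega), add_zero, one_mul]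
        exact odd_cast_one hDz
      · rw [coeff_eq_zero_of_natDegree_lt (by omega), if_neg (by omega), if_neg (by omega)]
        simp
      · simp [h0, show ¬ 0 = 2 * e by omega, show ¬ 0 = e by omega]
      · rw [if_neg (by omega), zero_add]
        obtain ⟨o, ho, hoe⟩ := hcoef l h1 h2 (b + 1 - l.factorization 2) (by
          have := htlt l h1 h2; omega)
        rw [hoe, Int.cast_mul, odd_cast_one ho, mul_one, Int.cast_pow]
        have hlz : l.factorization 2 = b + 1 ↔ l = e := by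
          refine ⟨fun hv => ?_, fun hv => by rw [hv, he]; simp [Nat.prime_two.factorization_pow]⟩
          obtain ⟨w, hw⟩ := (Nat.prime_two.pow_dvd_iff_le_factorization (by omega : l ≠ 0)).2
            hv.ge
          rw [← he] at hw
          rcases (show w = 0 ∨ w = 1 ∨ 2 ≤ w by omega) with rfl | rfl | hw2
          · simp at hw; omega
          · simpa using hw
          · nlinarith
        by_cases hle : l = e
        · rw [if_pos hle, hlz.2 hle, Nat.sub_self, pow_zero]
        · rw [if_neg hle, show ((2 : ℤ) : ZMod 2) = 0 from rfl, zero_pow]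
          have := htlt l h1 h2
          have : ¬ l.factorization 2 = b + 1 := fun hv => hle (hlz.1 hv)
          omega
    · rw [hodd, (coeff_sq _ l).2]
      split_ifs
      · rw [hm2]
        exact cast_zero_of_dvd ⟨-((1 * D : ℕ) * (e : ℤ)), by push_cast; ring⟩
      · exact Int.cast_zero
  · push Not at hp
    obtain ⟨P, hP, hdeg, hlead, h0, hodd, hev⟩ := exists_int_model (m := m) (u := 2)
      (by omega) two_ne_zero hD.pos.ne' hβ fun t _ _ => dvd_mul_right 2 _
    have hne : P ≠ 0 := fun h0' => by rw [h0'] at hdeg; simp at hdeg; omega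
    obtain ⟨A', R', hPAR, hd⟩ := exists_int_factors hne (A := C ((2 * D : ℕ) : ℚ) * A) (R := R)
      (by rw [hP, h]; ring)
    rw [natDegree_C_mul (by exact_mod_cast mul_ne_zero two_ne_zero hD.pos.ne')] at hd
    refine no_square_factor_odd hm hp hDz hdeg (by rw [hlead]; push_cast; ring) (fun t => ?_)
      (fun l => by rw [hodd]; push_cast; ring_nf) (hd ▸ hA) hPAR
    rcases (show t = 0 ∨ t = m ∨ m < t ∨ (1 ≤ t ∧ t < m) by omega) with
      rfl | rfl | ht | ⟨h1, h2⟩
    · simp [h0, parityPoly, coeff_X_add_one_pow, coeff_X_pow, show ¬ 0 = m by omega]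
      rfl
    · rw [hlead, Int.cast_natCast, Nat.cast_mul]
      simp [parityPoly, coeff_X_add_one_pow, coeff_X_pow, coeff_one, show t ≠ 0 by omega,
        show (OfNat.ofNat 2 : ZMod 2) = 0 from rfl]
      rfl
    · rw [coeff_eq_zero_of_natDegree_lt (by omega),
        coeff_parityPoly (by omega) (by omega), Nat.choose_eq_zero_of_lt ht]
      simp
    · obtain ⟨β, hβo, he'⟩ := hev t h1 h2
      have : P.coeff (2 * t) = ((2 * m).choose (2 * t) : ℕ) * β := by
        refine mul_left_cancel₀ two_ne_zero (he'.trans ?_)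
        push_cast
        ring
      rw [this, Int.cast_mul, odd_cast_one hβo, mul_one, Int.cast_natCast, choose_two_mul_zmod,
        coeff_parityPoly (by omega) (by omega)]

end FA.SchaefferRoots

end
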