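import Mathlib.FieldTheory.Finite.Basic
import Mathlib.Data.Nat.Choose.Lucas
import Mathlib.Data.Nat.Choose.Factorization
import Mathlib.Data.ZMod.Basic

/-!
# Binomial coefficients and squares modulo two
-/

set_option autoImplicit false

noncomputable section

namespace FA.SchaefferRoots

open Polynomial

theorem two_zmod : (2 : (ZMod 2)[X]) = 0 := by
  rw [← map_ofNat C 2, show (OfNat.ofNat 2 : ZMod 2) = 0 from rfl, C_0]

theorem zmod_two_cases : ∀ x : ZMod 2, x = 0 ∨ x = 1 := by decide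

/-- Lucas, one binary digit. -/
theorem choose_cast_zmod (n k : ℕ) : (n.choose k : ZMod 2) =
    ((n % 2).choose (k % 2) : ZMod 2) * ((n / 2).choose (k / 2) : ZMod 2) := by
  have : Fact (Nat.Prime 2) := ⟨Nat.prime_two⟩
  rw [← Nat.cast_mul, ZMod.natCast_eq_natCast_iff]
  exact Choose.choose_modEq_choose_mod_mul_choose_div_nat

theorem choose_two_mul_zmod (n k : ℕ) :
    ((2 * n).choose (2 * k) : ZMod 2) = (n.choose k : ZMod 2) := by
  rw [choose_cast_zmod, Nat.mul_mod_right, Nat.mul_mod_right,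
    Nat.mul_div_cancel_left _ two_pos, Nat.mul_div_cancel_left _ two_pos]
  simp

/-- A number that is not a power of two has an odd binomial coefficient inside. -/
theorem exists_choose_odd {m : ℕ} (hm : m ≠ 0) (h : ∀ a, m ≠ 2 ^ a) :
    ∃ t, 1 ≤ t ∧ t < m ∧ (m.choose t : ZMod 2) = 1 := by
  obtain ⟨v, o, ho, rfl⟩ := Nat.exists_eq_two_pow_mul_odd hm
  have ho1 : 1 < o := by
    rcases Nat.lt_or_ge 1 o with h1 | h1
    · exact h1
    · exact absurd (by rw [show o = 1 by have := ho.pos; omega, mul_one]) (h v)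
  refine ⟨2 ^ v, Nat.one_le_two_pow, by nlinarith [Nat.two_pow_pos v], ?_⟩
  clear h hm
  induction v with
  | zero => simp [ZMod.natCast_eq_one_iff_odd, ho]
  | succ v ih => rw [pow_succ', mul_assoc, choose_two_mul_zmod, ih]

theorem sq_eq_expand (f : (ZMod 2)[X]) : f ^ 2 = expand (ZMod 2) 2 f :=
  (ZMod.expand_card f).symm

theorem coeff_sq (f : (ZMod 2)[X]) (l : ℕ) :
    (f ^ 2).coeff (2 * l) = f.coeff l ∧ (f ^ 2).coeff (2 * l + 1) = 0 := by
  rw [sq_eq_expand, coeff_expand two_pos, coeff_expand two_pos]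
  refine ⟨by rw [if_pos (dvd_mul_right 2 l), Nat.mul_div_cancel_left _ two_pos], ?_⟩
  rw [if_neg (by omega)]

theorem sq_inj {f g : (ZMod 2)[X]} (h : f ^ 2 = g ^ 2) : f = g := by
  ext l
  rw [← (coeff_sq f l).1, h, (coeff_sq g l).1]

/-- Reductions modulo two of equal polynomials differ by a multiple of two. -/
theorem exists_two_mul {F G : ℤ[X]}
    (h : F.map (Int.castRingHom (ZMod 2)) = G.map (Int.castRingHom (ZMod 2))) :
    ∃ H : ℤ[X], F = G + C 2 * H := by
  obtain ⟨H, hH⟩ : C (2 : ℤ) ∣ F - G := C_dvd_iff_dvd_coeff _ _ |>.2 fun i => by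
    have h1 := congrArg (fun f : (ZMod 2)[X] => f.coeff i) h
    simp only [coeff_map, eq_intCast] at h1
    rw [coeff_sub]
    exact (ZMod.intCast_eq_intCast_iff_dvd_sub _ _ 2).1 h1.symm
  exact ⟨H, by rw [← hH]; ring⟩

end FA.SchaefferRoots

end
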